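import Mathlib

set_option autoImplicit false

open UpperHalfPlane ModularForm Derivative
open scoped MatrixGroups ModularForm Manifold

noncomputable section

namespace Fermat.Agent.S22_helper71

/-- The function on the upper half plane given by evaluating a complex polynomial. -/
def polyFun (P : Polynomial ℂ) : ℍ → ℂ := fun z => P.eval (z : ℂ)

theorem polyFun_apply (P : Polynomial ℂ) (z : ℍ) : polyFun P z = P.eval (z : ℂ) := rfl

theorem polyFun_add (P Q : Polynomial ℂ) : polyFun (P + Q) = polyFun P + polyFun Q := by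
  ext z; simp [polyFun]

theorem polyFun_sub (P Q : Polynomial ℂ) : polyFun (P - Q) = polyFun P - polyFun Q := by
  ext z; simp [polyFun]

theorem polyFun_smul (c : ℂ) (P : Polynomial ℂ) : polyFun (c • P) = c • polyFun P := by
  ext z; simp [polyFun]

theorem polyFun_zero : polyFun 0 = 0 := by
  ext z; simp [polyFun]

theorem polyFun_C (c : ℂ) : polyFun (Polynomial.C c) = fun _ => c := by
  ext z; simp [polyFun]

theorem polyFun_comp_ofComplex_eqOn (P : Polynomial ℂ) :
    Set.EqOn (polyFun P ∘ ofComplex) (fun w => P.eval w) upperHalfPlaneSet := by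
  intro w hw
  simp only [Function.comp_apply, polyFun]
  rw [ofComplex_apply_of_im_pos hw]

theorem mdiff_polyFun (P : Polynomial ℂ) : MDiff (polyFun P) := by
  rw [UpperHalfPlane.mdifferentiable_iff]
  exact (P.differentiable.differentiableOn).congr (polyFun_comp_ofComplex_eqOn P)

theorem D_polyFun (P : Polynomial ℂ) :
    D (polyFun P) = (2 * (Real.pi : ℂ) * Complex.I)⁻¹ • polyFun (Polynomial.derivative P) := by
  ext z
  simp only [normalizedDerivOfComplex, Pi.smul_apply, smul_eq_mul, polyFun]
  congr 1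
  have h : (polyFun P ∘ ofComplex) =ᶠ[nhds (z : ℂ)] fun w => P.eval w :=
    Filter.eventuallyEq_of_mem (isOpen_upperHalfPlaneSet.mem_nhds z.im_pos)
      (polyFun_comp_ofComplex_eqOn P)
  rw [h.deriv_eq, Polynomial.deriv]

theorem iterate_D_polyFun_eq (m : ℕ) (P : Polynomial ℂ) :
    D^[m] (polyFun P) =
      ((2 * (Real.pi : ℂ) * Complex.I)⁻¹) ^ m • polyFun (Polynomial.derivative^[m] P) := by
  induction m generalizing P with
  | zero => simp
  | succ m ih =>
    rw [Function.iterate_succ_apply, D_polyFun, Function.iterate_succ_apply]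
    have hsm : ∀ (c : ℂ) (Q : Polynomial ℂ), c • polyFun Q = polyFun (c • Q) :=
      fun c Q => (polyFun_smul c Q).symm
    rw [hsm, ih, Polynomial.iterate_derivative_smul, polyFun_smul, smul_smul, pow_succ]

theorem iterate_D_polyFun {m : ℕ} {P : Polynomial ℂ} (hP : P.degree < m) :
    D^[m] (polyFun P) = 0 := by
  rw [iterate_D_polyFun_eq]
  have h0 : Polynomial.derivative^[m] P = 0 := by
    by_cases hP0 : P = 0
    · rw [hP0, Polynomial.iterate_derivative_zero]
    · exact Polynomial.iterate_derivative_eq_zero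
        ((Polynomial.natDegree_lt_iff_degree_lt hP0).mpr hP)
  rw [h0, polyFun_zero, smul_zero]

theorem infinite_upperHalfPlaneSet : (upperHalfPlaneSet).Infinite := by
  refine Set.infinite_of_injective_forall_mem (f := fun n : ℕ => ((n : ℂ) + 1) * Complex.I) ?_ ?_
  · intro a b hab
    have h := congrArg Complex.im hab
    simpa using h
  · intro n
    show 0 < (((n : ℂ) + 1) * Complex.I).im
    simp
    positivity

theorem polyFun_injective : Function.Injective polyFun := by
  intro P Q h
  apply Polynomial.eq_of_infinite_eval_eq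
  refine infinite_upperHalfPlaneSet.mono ?_
  intro w hw
  have := congrFun h ⟨w, hw⟩
  simpa [polyFun] using this

theorem tendsto_norm_coe_atImInfty :
    Filter.Tendsto (fun z : ℍ => ‖(z : ℂ)‖) atImInfty Filter.atTop := by
  have h1 : Filter.Tendsto UpperHalfPlane.im atImInfty Filter.atTop := Filter.tendsto_comap
  refine Filter.tendsto_atTop_mono (fun z => ?_) h1
  exact (le_abs_self _).trans (Complex.abs_im_le_norm (z : ℂ))

theorem eq_zero_of_isZeroAtImInfty_polyFun {P : Polynomial ℂ}
    (h : IsZeroAtImInfty (polyFun P)) : P = 0 := by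
  have h' : Filter.Tendsto (polyFun P) atImInfty (nhds 0) := h
  by_cases hd : 0 < P.degree
  · exfalso
    have h1 : Filter.Tendsto (fun z : ℍ => ‖P.eval (z : ℂ)‖) atImInfty Filter.atTop :=
      P.tendsto_norm_atTop hd tendsto_norm_coe_atImInfty
    have h2 : Filter.Tendsto (fun z : ℍ => ‖P.eval (z : ℂ)‖) atImInfty (nhds 0) := by
      have := h'.norm
      simpa [polyFun] using this
    exact not_tendsto_nhds_of_tendsto_atTop h1 0 h2
  · have hC : P = Polynomial.C (P.coeff 0) :=
      Polynomial.eq_C_of_degree_le_zero (le_of_not_gt hd)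
    have h3 : Filter.Tendsto (polyFun P) atImInfty (nhds (P.coeff 0)) := by
      rw [hC, polyFun_C]
      simp
    have : P.coeff 0 = 0 := tendsto_nhds_unique h3 h'
    rw [hC, this, Polynomial.C_0]

theorem exists_const_of_periodic_polyFun {P : Polynomial ℂ} {h : ℝ} (hh : h ≠ 0)
    (hper : Function.Periodic (polyFun P ∘ ofComplex) h) : ∃ c : ℂ, P = Polynomial.C c := by
  refine ⟨P.eval Complex.I, ?_⟩
  apply Polynomial.eq_of_infinite_eval_eq
  have hmem : ∀ n : ℕ, 0 < (Complex.I + (n : ℂ) * (h : ℂ)).im := by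
    intro n
    simp
  have hinf : (Set.range fun n : ℕ => Complex.I + (n : ℂ) * (h : ℂ)).Infinite := by
    apply Set.infinite_range_of_injective
    intro a b hab
    have h1 : (a : ℂ) * (h : ℂ) = (b : ℂ) * (h : ℂ) := add_left_cancel hab
    have h2 : (a : ℂ) = (b : ℂ) :=
      mul_right_cancel₀ (Complex.ofReal_ne_zero.mpr hh) h1
    exact_mod_cast h2
  refine hinf.mono ?_
  rintro _ ⟨n, rfl⟩
  have h1 := (hper.nat_mul n) Complex.I
  simp only [Function.comp_apply] at h1
  rw [ofComplex_apply_of_im_pos (hmem n), ofComplex_apply_of_im_pos (by simp)] at h1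
  simpa [polyFun] using h1

theorem exists_const_of_D_eq_zero {H : ℍ → ℂ} (hH : MDiff H) (h0 : D H = 0) :
    ∃ c : ℂ, H = fun _ => c := by
  have hdiff : DifferentiableOn ℂ (H ∘ ofComplex) upperHalfPlaneSet :=
    UpperHalfPlane.mdifferentiable_iff.mp hH
  have hpi : (2 * (Real.pi : ℂ) * Complex.I)⁻¹ ≠ 0 := by
    apply inv_ne_zero
    simp [Real.pi_ne_zero]
  have hderiv : Set.EqOn (deriv (H ∘ ofComplex)) 0 upperHalfPlaneSet := by
    intro w hw
    have h1 := congrFun h0 ⟨w, hw⟩
    simp only [normalizedDerivOfComplex, Pi.zero_apply] at h1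
    rcases mul_eq_zero.mp h1 with h2 | h2
    · exact absurd h2 hpi
    · simpa using h2
  obtain ⟨a, ha⟩ := isOpen_upperHalfPlaneSet.exists_is_const_of_deriv_eq_zero
    (convex_halfSpace_im_gt 0).isPreconnected hdiff hderiv
  refine ⟨a, funext fun z => ?_⟩
  have := ha (z : ℂ) z.im_pos
  simpa using this

theorem exists_antiderivative (Q : Polynomial ℂ) (m : ℕ) (hQ : Q.degree < m) :
    ∃ R : Polynomial ℂ, Polynomial.derivative R = Q ∧ R.degree < (m + 1 : ℕ) := by
  by_cases hQ0 : Q = 0
  · exact ⟨0, by simp [hQ0], by simp⟩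
  have hnat : Q.natDegree < m := (Polynomial.natDegree_lt_iff_degree_lt hQ0).mpr hQ
  refine ⟨∑ i ∈ Finset.range (Q.natDegree + 1),
      Polynomial.C (Q.coeff i / ((i : ℂ) + 1)) * Polynomial.X ^ (i + 1), ?_, ?_⟩
  · rw [Polynomial.derivative_sum]
    conv_rhs => rw [Polynomial.as_sum_range_C_mul_X_pow Q]
    refine Finset.sum_congr rfl fun i _ => ?_
    rw [Polynomial.derivative_C_mul_X_pow]
    have hi : (i : ℂ) + 1 ≠ 0 := by exact_mod_cast Nat.succ_ne_zero i
    congr 2
    · push_cast
      field_simp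
  · refine lt_of_le_of_lt (Polynomial.degree_sum_le _ _) ?_
    rw [Finset.sup_lt_iff (WithBot.bot_lt_coe _)]
    intro i hi
    refine lt_of_le_of_lt (Polynomial.degree_C_mul_X_pow_le _ _) ?_
    have : i < Q.natDegree + 1 := Finset.mem_range.mp hi
    exact_mod_cast (by omega : i + 1 < m + 1)

theorem exists_poly_of_iterate_D_eq_zero (m : ℕ) {G : ℍ → ℂ} (hG : MDiff G)
    (h0 : D^[m] G = 0) : ∃ P : Polynomial ℂ, P.degree < m ∧ G = polyFun P := by
  induction m generalizing G with
  | zero =>
    refine ⟨0, by simp, ?_⟩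
    rw [polyFun_zero]
    simpa using h0
  | succ m ih =>
    rw [Function.iterate_succ_apply] at h0
    obtain ⟨Q, hQdeg, hQ⟩ := ih (normalizedDerivOfComplex_mdifferentiable hG) h0
    have hpi : (2 * (Real.pi : ℂ) * Complex.I) ≠ 0 := by
      simp [Real.pi_ne_zero]
    obtain ⟨R, hRder, hRdeg⟩ := exists_antiderivative ((2 * (Real.pi : ℂ) * Complex.I) • Q) m
      (lt_of_le_of_lt (Polynomial.degree_smul_le _ _) hQdeg)
    have hDR : D (polyFun R) = polyFun Q := by
      rw [D_polyFun, hRder, polyFun_smul, smul_smul, inv_mul_cancel₀ hpi, one_smul]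
    have hD0 : D (G - polyFun R) = 0 := by
      rw [normalizedDerivOfComplex_sub _ _ hG (mdiff_polyFun R), hQ, hDR, sub_self]
    obtain ⟨c, hc⟩ := exists_const_of_D_eq_zero (hG.sub (mdiff_polyFun R)) hD0
    refine ⟨R + Polynomial.C c, ?_, ?_⟩
    · refine lt_of_le_of_lt (Polynomial.degree_add_le _ _) (max_lt hRdeg ?_)
      refine lt_of_le_of_lt Polynomial.degree_C_le ?_
      exact_mod_cast Nat.succ_pos m
    · rw [polyFun_add, polyFun_C]
      ext z
      have := congrFun hc z
      simp only [Pi.sub_apply] at this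
      simp only [Pi.add_apply]
      rw [← this]
      ring

end Fermat.Agent.S22_helper71
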