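import Mathlib

set_option autoImplicit false

open scoped MatrixGroups

namespace Fermat.Agent.S22_helper71

theorem sl2z_fg : Group.FG SL(2, ℤ) := by
  rw [Group.fg_iff]
  exact ⟨{ModularGroup.S, ModularGroup.T}, SpecialLinearGroup.SL2Z_generators, by simp⟩

theorem gamma0_fg (N : ℕ) [NeZero N] : Group.FG (CongruenceSubgroup.Gamma0 N) := by
  have := sl2z_fg
  exact Subgroup.fg_of_index_ne_zero _

theorem gamma0_subgroup_fg (N : ℕ) [NeZero N] : (CongruenceSubgroup.Gamma0 N).FG :=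
  (Group.fg_iff_subgroup_fg _).mp (gamma0_fg N)

theorem exists_finset_closure_eq_gamma0 (N : ℕ) [NeZero N] :
    ∃ s : Finset SL(2, ℤ), (↑s : Set SL(2, ℤ)) ⊆ (CongruenceSubgroup.Gamma0 N : Set SL(2, ℤ)) ∧
      Subgroup.closure (↑s : Set SL(2, ℤ)) = CongruenceSubgroup.Gamma0 N := by
  obtain ⟨s, hs⟩ := gamma0_subgroup_fg N
  refine ⟨s, ?_, hs⟩
  intro x hx
  have : x ∈ Subgroup.closure (↑s : Set SL(2, ℤ)) := Subgroup.subset_closure hx
  rw [hs] at this
  exact this

end Fermat.Agent.S22_helper71
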